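/-
MAZUR (Track M), package (E1)(gal) (helper7), part 1: **the Hecke operators on `J₀(N)(ℚ̄)` commute
with the Galois action** (globally, on all of `JZero N`):

  `mzeg_hecke_smul : heckeOperatorBar N ℓ (σ • x) = σ • heckeOperatorBar N ℓ x`.

`T_ℓ = α_* β^*`; both `α` (`q ↦ q`) and `β` (`q ↦ q^ℓ`) intertwine the coefficientwise Galois
actions; pull-back of divisors is equivariant (`T3/Pull/Functor`), push-forward too (all residue
degrees are one over `ℚ̄`).
-/
import Mathlib
import Fermat.Prelude.Thm_ModularCurve_coeffMap_qExpand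
import Fermat.Agent.Lib.T3.Pull.Modular
import Fermat.Agent.Lib.T3.Hecke.Modular

set_option autoImplicit false
set_option linter.unusedSectionVars false
set_option linter.style.haveILetI false

namespace Fermat.Agent.Mazur

open AlgebraicCurve ModularCurve Fermat.Agent.Curve Fermat.Agent.T3 HahnSeries

local notation "Qb" => AlgebraicClosure ℚ
local notation "GQ" => (AlgebraicClosure ℚ ≃ₐ[ℚ] AlgebraicClosure ℚ)

section Abs

variable {K F F' : Type*} [Field K] [Field F] [Field F'] [Algebra K F] [Algebra K F']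
  [IsAlgClosed K] [CharZero K]

/-- push-forward of divisors commutes with intertwined semilinear automorphisms (all residue degrees
are one) -/
theorem mzeg_pushforwardAlong_smul (φ : F →ₐ[K] F') (hφ : φ.toRingHom.IsIntegral)
    {x' : F'} (hx' : IsFunctionFieldGen K F' x')
    {g : SemilinearAut K F} {g' : SemilinearAut K F'}
    (h : SemilinearAut.IntertwinesAlong φ.toRingHom g g') (D : Divisor K F') :
    Divisor.pushforwardAlong φ hφ (g' • D) = g • Divisor.pushforwardAlong φ hφ D := by
  induction D using Finsupp.induction with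
  | zero => simp
  | single_add w n D _ _ ih =>
    rw [smul_add, map_add, map_add, smul_add, ih, SemilinearAut.smul_single,
      Divisor.pushforwardAlong_single, Divisor.pushforwardAlong_single,
      SemilinearAut.smul_single, t3p_restrictAlong_smul φ hφ h,
      t3h_inertiaDegAlong_eq_one hx', t3h_inertiaDegAlong_eq_one hx']

/-- a correspondence `ψ_* φ^*` commutes with semilinear automorphisms intertwined by both legs -/
theorem mzeg_correspondence_smul [HasPrincipalDivisors K F'] (φ ψ : F →ₐ[K] F')
    (hφ : φ.toRingHom.IsIntegral) (hψ : ψ.toRingHom.IsIntegral)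
    {x' : F'} (hx' : IsFunctionFieldGen K F' x')
    {g : SemilinearAut K F} {g' : SemilinearAut K F'}
    (h1 : SemilinearAut.IntertwinesAlong φ.toRingHom g g')
    (h2 : SemilinearAut.IntertwinesAlong ψ.toRingHom g g') (D : Divisor K F) :
    Divisor.correspondence φ ψ hφ hψ (g • D) = g • Divisor.correspondence φ ψ hφ hψ D := by
  rw [Divisor.correspondence_apply, Divisor.correspondence_apply,
    t3p_pullbackAlong_smul φ hφ h1, mzeg_pushforwardAlong_smul ψ hψ hx' h2]

end Abs

section Modular

variable (N ℓ : ℕ) [NeZero N] [NeZero ℓ]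

/-- `β : q ↦ q^ℓ` intertwines the arithmetic Galois actions -/
theorem mzeg_intertwines_beta (σ : GQ) :
    SemilinearAut.IntertwinesAlong (heckeBetaBar Qb N ℓ).toRingHom
      (arithmeticGalois (modularFunctionFieldFull N) σ)
      (arithmeticGalois (modularFunctionFieldFull (N * ℓ)) σ) := by
  intro y
  apply Subtype.ext
  rw [coe_arithmeticGalois_smul]
  show _ = ((heckeBetaBar Qb N ℓ (arithmeticGalois (modularFunctionFieldFull N) σ • y) :
    ↥(modularFunctionFieldBar (N * ℓ))) : LaurentSeries Qb)
  rw [coe_heckeBetaBar, coe_arithmeticGalois_smul]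
  show coeffMap _ ((heckeBetaBar Qb N ℓ y : ↥(modularFunctionFieldBar (N * ℓ))) :
    LaurentSeries Qb) = _
  rw [coe_heckeBetaBar, coeffMap_qExpand]

/-- the Hecke correspondence on divisors commutes with the Galois action -/
theorem mzeg_heckeDivBar_smul (σ : GQ) (D : Divisor Qb ↥(modularFunctionFieldBar N)) :
    heckeDivBar (t3h_alphaIntegral N ℓ) (t3h_betaIntegral N ℓ)
        (arithmeticGalois (modularFunctionFieldFull N) σ • D)
      = arithmeticGalois (modularFunctionFieldFull N) σ •
        heckeDivBar (t3h_alphaIntegral N ℓ) (t3h_betaIntegral N ℓ) D :=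
  mzeg_correspondence_smul _ _ _ _ (t3h_gen (N * ℓ)) (mzeg_intertwines_beta N ℓ σ)
    (t3p_intertwines N ℓ σ) D

/-- `T_ℓ` (as `heckeOperatorAlong`) commutes with the Galois action on `J₀(N)(ℚ̄)` -/
theorem mzeg_heckeOperatorAlong_smul (σ : GQ) (x : JZero N) :
    heckeOperatorAlong Qb N ℓ (σ • x) = σ • heckeOperatorAlong Qb N ℓ x := by
  obtain ⟨D, rfl⟩ := Pic0.mk_surjective x
  rw [galois_smul_pic0_def, galois_smul_pic0_def, SemilinearAut.pic0_smul_mk,
    t3h_heckeOperatorAlong_mk, t3h_heckeOperatorAlong_mk, SemilinearAut.pic0_smul_mk]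
  apply congrArg Pic0.mk
  apply Subtype.ext
  exact mzeg_heckeDivBar_smul N ℓ σ (D : Divisor Qb ↥(modularFunctionFieldBar N))

end Modular

/-- **the Hecke operators on `J₀(N)(ℚ̄)` are Galois equivariant** -/
theorem mzeg_hecke_smul (N : ℕ) [NeZero N] (ℓ : Nat.Primes) (σ : GQ) (x : JZero N) :
    heckeOperatorBar N ℓ (σ • x) = σ • heckeOperatorBar N ℓ x := by
  haveI : NeZero (ℓ : ℕ) := ⟨ℓ.2.ne_zero⟩
  rw [heckeOperatorBar_apply, heckeOperatorBar_apply]
  exact mzeg_heckeOperatorAlong_smul N ℓ σ x

end Fermat.Agent.Mazur
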