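/-
MAZUR (Track M), package (E1)(gal) (helper7), part 2: **Eichler–Shimura on torsion points of
`J₀(N)(ℚ̄)` and the commutativity of the Hecke operators on torsion**.

* `mzeg_rho : T3Rho` (the input of the credited S37, unconditional);
* `mzeg_es` : for `ℓ ∤ N m`, `σ` a Frobenius element at `ℓ` and `m • x = 0`:
  `σ • σ • x - T_ℓ (σ • x) + ℓ • x = 0`;
* `mzeg_hecke_eq` : `T_ℓ z = σ • z + ℓ • σ⁻¹ • z` on `J₀(N)[m]`;
* `mzeg_comm` : `T_ℓ (T_q x) = T_q (T_ℓ x)` for `m • x = 0`, `ℓ ∤ N m` (`q` arbitrary).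
-/
import Fermat.Agent.Lib.Mazur.E.Gal.Hecke
import Fermat.Agent.Lib.T3.Asm.Glue
import Fermat.Agent.Lib.T3.ES.Final
import Fermat.Agent.Lib.T3.ES.Level1

set_option autoImplicit false
set_option linter.unusedSectionVars false
set_option linter.style.haveILetI false

namespace Fermat.Agent.Mazur

open ModularCurve Fermat.Agent.T3

local notation "Qb" => AlgebraicClosure ℚ
local notation "GQ" => (AlgebraicClosure ℚ ≃ₐ[ℚ] AlgebraicClosure ℚ)

/-- the unconditional input of S37 -/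
theorem mzeg_rho : T3Rho :=
  t3_rho_of_ES (t3d_ES_of_level1 (fun M ℓ _ _ h => t3d1_hecke_j_poly M ℓ h))

/-- auxiliary: `a - b + c` is `m`-torsion if `a`, `b`, `c` are -/
theorem mzeg_torsion_aux {J : Type*} [AddCommGroup J] (m : ℕ) {a b c : J} (ha : m • a = 0)
    (hb : m • b = 0) (hc : m • c = 0) : m • (a - b + c) = 0 := by
  rw [smul_add, smul_sub, ha, hb, hc, sub_zero, add_zero]

/-- auxiliary: `a - b + c = 0 → b = a + c` -/
theorem mzeg_eq_aux {J : Type*} [AddCommGroup J] {a b c : J} (h : a - b + c = 0) : b = a + c := by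
  rw [sub_add_eq_add_sub, sub_eq_zero] at h
  exact h.symm

variable (N : ℕ) [NeZero N]

/-- the Hecke operators preserve `m`-torsion -/
theorem mzeg_hecke_torsion (q : Nat.Primes) {m : ℕ} {x : JZero N} (hx : m • x = 0) :
    m • heckeOperatorBar N q x = 0 := by
  rw [← map_nsmul, hx, map_zero]

/-- the Galois action preserves `m`-torsion -/
theorem mzeg_smul_torsion (σ : GQ) {m : ℕ} {x : JZero N} (hx : m • x = 0) :
    m • (σ • x) = 0 := by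
  rw [smul_comm, hx]
  exact smul_zero (A := JZero N) σ

/-- **Eichler–Shimura on torsion points** -/
theorem mzeg_es (ℓ : Nat.Primes) (hℓN : ¬ (ℓ : ℕ) ∣ N) (A : ValuationSubring Qb)
    (hA : A.LiesOverPrime ℓ) {σ : GQ} (hσ : A.IsFrobeniusAt σ ℓ) {m : ℕ} (hm : ¬ (ℓ : ℕ) ∣ m)
    {x : JZero N} (hx : m • x = 0) :
    σ • σ • x - heckeOperatorBar N ℓ (σ • x) + (ℓ : ℕ) • x = 0 := by
  obtain ⟨G, _, ρ, -, hF, hinj⟩ := mzeg_rho N ℓ ℓ.2 hℓN A hA
  have h1 : ρ (σ • σ • x - heckeOperatorBar N ℓ (σ • x) + (ℓ : ℕ) • x) = 0 := hF σ hσ x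
  refine hinj m hm _ ?_ h1
  refine mzeg_torsion_aux m (mzeg_smul_torsion N σ (mzeg_smul_torsion N σ hx))
    (mzeg_hecke_torsion N _ (mzeg_smul_torsion N σ hx)) ?_
  rw [smul_comm, hx, smul_zero]

/-- `T_ℓ = Frob + ℓ Frob⁻¹` on `J₀(N)[m]`, `ℓ ∤ N m` -/
theorem mzeg_hecke_eq (ℓ : Nat.Primes) (hℓN : ¬ (ℓ : ℕ) ∣ N) (A : ValuationSubring Qb)
    (hA : A.LiesOverPrime ℓ) {σ : GQ} (hσ : A.IsFrobeniusAt σ ℓ) {m : ℕ} (hm : ¬ (ℓ : ℕ) ∣ m)
    {z : JZero N} (hz : m • z = 0) :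
    heckeOperatorBar N ℓ z = σ • z + (ℓ : ℕ) • σ⁻¹ • z := by
  have h := mzeg_es N ℓ hℓN A hA hσ hm (mzeg_smul_torsion N σ⁻¹ hz)
  have h2 : σ • σ⁻¹ • z = z := smul_inv_smul σ z
  have h3 := mzeg_eq_aux h
  rw [h2] at h3
  exact h3

/-- **the Hecke operators commute on torsion points**: `T_ℓ T_q x = T_q T_ℓ x` for `m • x = 0`
and `ℓ ∤ N m` -/
theorem mzeg_comm (ℓ : Nat.Primes) (hℓN : ¬ (ℓ : ℕ) ∣ N) (q : Nat.Primes) {m : ℕ}
    (hm : ¬ (ℓ : ℕ) ∣ m) {x : JZero N} (hx : m • x = 0) :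
    heckeOperatorBar N ℓ (heckeOperatorBar N q x)
      = heckeOperatorBar N q (heckeOperatorBar N ℓ x) := by
  obtain ⟨A, σ, hA, hσ⟩ := Fermat.Agent.Lib.Helper6.exists_frobenius ℓ ℓ.2
  rw [mzeg_hecke_eq N ℓ hℓN A hA hσ hm (mzeg_hecke_torsion N q hx),
    mzeg_hecke_eq N ℓ hℓN A hA hσ hm hx, map_add, map_nsmul, mzeg_hecke_smul, mzeg_hecke_smul]

end Fermat.Agent.Mazur
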